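import Fermat.Agent.H22.Hecke
import Fermat.Agent.S22

/-!
# The Hecke character of a normalised eigenform
-/

set_option autoImplicit false

namespace Fermat.Agent.H23

open CongruenceSubgroup ModularFormClass ModularForm

variable {N : ℕ} [NeZero N]

/-- The combined Hecke relation of a normalised eigenform, at all primes. -/
theorem eigen_relation {g : CuspForm (Gamma0 N) 2} (hg : g.IsNormalizedEigenform) {ℓ : ℕ}
    (hℓ : ℓ.Prime) (n : ℕ) :
    qCoeff ⇑g (n * ℓ) + (if ℓ ∣ n then (if ℓ ∣ N then 0 else (ℓ : ℂ)) * qCoeff ⇑g (n / ℓ) else 0)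
      = qCoeff ⇑g ℓ * qCoeff ⇑g n := by
  rcases eq_or_ne n 0 with rfl | hn
  · simp [H22.cusp_qCoeff_zero]
  obtain ⟨r, m, hm, rfl⟩ : ∃ r m, ¬ ℓ ∣ m ∧ n = ℓ ^ r * m := by
    obtain ⟨r, m, hm, h⟩ := Nat.exists_eq_pow_mul_and_not_dvd hn ℓ hℓ.ne_one
    exact ⟨r, m, hm, h⟩
  have hcop : ∀ s : ℕ, (ℓ ^ s).Coprime m := fun s =>
    Nat.Coprime.pow_left s ((Nat.Prime.coprime_iff_not_dvd hℓ).mpr hm)
  have hmul : ∀ s : ℕ, qCoeff ⇑g (ℓ ^ s * m) = qCoeff ⇑g (ℓ ^ s) * qCoeff ⇑g m := fun s =>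
    hg.qCoeff_mul_of_coprime _ _ (hcop s)
  have e1 : ℓ ^ r * m * ℓ = ℓ ^ (r + 1) * m := by ring
  rw [e1, hmul, hmul]
  rcases r with _ | r
  · rw [if_neg (by simpa using hm)]
    simp only [zero_add, pow_one, pow_zero, add_zero, hg.qCoeff_one, one_mul]
  · have e2 : ℓ ∣ ℓ ^ (r + 1) * m := Dvd.dvd.mul_right (dvd_pow_self _ (Nat.succ_ne_zero _)) _
    have e3 : ℓ ^ (r + 1) * m / ℓ = ℓ ^ r * m := by
      have : ℓ ^ (r + 1) * m = (ℓ ^ r * m) * ℓ := by ring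
      rw [this, Nat.mul_div_cancel _ hℓ.pos]
    rw [if_pos e2, e3, hmul]
    by_cases hN : ℓ ∣ N
    · rw [if_pos hN, hg.qCoeff_prime_pow_of_dvd ℓ r hℓ hN]
      ring
    · rw [if_neg hN, hg.qCoeff_prime_pow_of_not_dvd ℓ r hℓ hN]
      ring

theorem eq_of_qCoeff_eq {k : ℤ} {f g : CuspForm (Gamma0 N) k}
    (h : ∀ n, qCoeff ⇑f n = qCoeff ⇑g n) : f = g := by
  rw [← sub_eq_zero]
  exact H22.cusp_eq_zero_of_qCoeff _ fun n _ => by rw [H22.cusp_qCoeff_sub, h, sub_self]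

theorem heckeTLin_eigen {g : CuspForm (Gamma0 N) 2} (hg : g.IsNormalizedEigenform) {ℓ : ℕ}
    (hℓ : ℓ.Prime) (hℓN : ¬ ℓ ∣ N) :
    CuspForm.heckeTLin 2 hℓ hℓN g = qCoeff ⇑g ℓ • g := by
  refine eq_of_qCoeff_eq fun n => ?_
  rw [H22.qCoeff_heckeTLin, H22.cusp_qCoeff_smul, ← eigen_relation hg hℓ n, coeffHeckeT_apply]
  rw [if_neg hℓN]
  norm_num

theorem heckeULin_eigen {g : CuspForm (Gamma0 N) 2} (hg : g.IsNormalizedEigenform) {ℓ : ℕ}
    (hℓ : ℓ.Prime) (hℓN : ℓ ∣ N) :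
    CuspForm.heckeULin 2 hℓN g = qCoeff ⇑g ℓ • g := by
  refine eq_of_qCoeff_eq fun n => ?_
  rw [H22.qCoeff_heckeULin, H22.cusp_qCoeff_smul, ← eigen_relation hg hℓ n, coeffHeckeU_apply]
  rw [if_pos hℓN]
  simp

theorem exists_scalar {g : CuspForm (Gamma0 N) 2} (hg : g.IsNormalizedEigenform) (S : Set ℕ)
    (t : CuspForm.heckeAlgebra N 2 S) :
    ∃ c : ℂ, (t : Module.End ℂ (CuspForm (Gamma0 N) 2)) g = c • g := by
  obtain ⟨t, ht⟩ := t
  change ∃ c : ℂ, t g = c • g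
  unfold CuspForm.heckeAlgebra at ht
  induction ht using Algebra.adjoin_induction with
  | mem x hx =>
    rcases hx with ⟨ℓ, hℓ, hℓN, -, rfl⟩ | ⟨q, hqN, hq, -, rfl⟩
    · exact ⟨_, heckeTLin_eigen hg hℓ hℓN⟩
    · exact ⟨_, heckeULin_eigen hg hq hqN⟩
  | algebraMap r =>
    refine ⟨r, ?_⟩
    rw [Module.algebraMap_end_apply, Int.cast_smul_eq_zsmul]
  | add x y _ _ hx hy =>
    obtain ⟨a, ha⟩ := hx
    obtain ⟨b, hb⟩ := hy
    exact ⟨a + b, by rw [LinearMap.add_apply, ha, hb, add_smul]⟩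
  | mul x y _ _ hx hy =>
    obtain ⟨a, ha⟩ := hx
    obtain ⟨b, hb⟩ := hy
    exact ⟨b * a, by rw [Module.End.mul_apply, hb, map_smul, ha, smul_smul]⟩

/-- The scalar by which a Hecke operator acts on a normalised eigenform. -/
theorem apply_eq_smul {g : CuspForm (Gamma0 N) 2} (hg : g.IsNormalizedEigenform) (S : Set ℕ)
    (t : CuspForm.heckeAlgebra N 2 S) :
    (t : Module.End ℂ (CuspForm (Gamma0 N) 2)) g =
      qCoeff ⇑((t : Module.End ℂ (CuspForm (Gamma0 N) 2)) g) 1 • g := by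
  obtain ⟨c, hc⟩ := exists_scalar hg S t
  rw [hc, H22.cusp_qCoeff_smul, hg.qCoeff_one, mul_one]

theorem smul_left_cancel_of_eigen {g : CuspForm (Gamma0 N) 2} (hg : g.IsNormalizedEigenform)
    {a b : ℂ} (h : a • g = b • g) : a = b := by
  have h1 := congrArg (fun f : CuspForm (Gamma0 N) 2 => qCoeff ⇑f 1) h
  simp only [H22.cusp_qCoeff_smul, hg.qCoeff_one, mul_one] at h1
  exact h1

/-- The complex character of the Hecke algebra attached to a normalised eigenform. -/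
noncomputable def eigenCharC {g : CuspForm (Gamma0 N) 2} (hg : g.IsNormalizedEigenform)
    (S : Set ℕ) : CuspForm.heckeAlgebra N 2 S →+* ℂ where
  toFun t := qCoeff ⇑((t : Module.End ℂ (CuspForm (Gamma0 N) 2)) g) 1
  map_one' := by
    change qCoeff ⇑((1 : Module.End ℂ (CuspForm (Gamma0 N) 2)) g) 1 = 1
    rw [Module.End.one_apply, hg.qCoeff_one]
  map_zero' := by
    change qCoeff ⇑((0 : Module.End ℂ (CuspForm (Gamma0 N) 2)) g) 1 = 0
    rw [LinearMap.zero_apply]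
    exact map_zero (H22.qCoeffLin N 2 1)
  map_add' x y := by
    change qCoeff ⇑(((x : Module.End ℂ (CuspForm (Gamma0 N) 2)) + y) g) 1 = _
    rw [LinearMap.add_apply, H22.cusp_qCoeff_add]
  map_mul' x y := by
    change qCoeff ⇑(((x : Module.End ℂ (CuspForm (Gamma0 N) 2)) * y) g) 1 = _
    apply smul_left_cancel_of_eigen hg
    have h1 := apply_eq_smul hg S (x * y)
    rw [MulMemClass.coe_mul] at h1
    rw [← h1, Module.End.mul_apply]
    conv_lhs => rw [apply_eq_smul hg S y, map_smul, apply_eq_smul hg S x, smul_smul]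
    rw [mul_comm]

theorem eigenCharC_apply {g : CuspForm (Gamma0 N) 2} (hg : g.IsNormalizedEigenform)
    (S : Set ℕ) (t : CuspForm.heckeAlgebra N 2 S) :
    eigenCharC hg S t = qCoeff ⇑((t : Module.End ℂ (CuspForm (Gamma0 N) 2)) g) 1 := rfl

theorem eigenCharC_T {g : CuspForm (Gamma0 N) 2} (hg : g.IsNormalizedEigenform)
    {S : Set ℕ} {ℓ : ℕ} (hℓ : ℓ.Prime) (hℓN : ¬ ℓ ∣ N) (hℓS : ℓ ∉ S) :
    eigenCharC hg S (CuspForm.heckeAlgebra.T hℓ hℓN hℓS) = qCoeff ⇑g ℓ := by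
  rw [eigenCharC_apply, CuspForm.heckeAlgebra.coe_T, heckeTLin_eigen hg hℓ hℓN,
    H22.cusp_qCoeff_smul, hg.qCoeff_one, mul_one]

theorem isIntegral_eigenCharC {g : CuspForm (Gamma0 N) 2} (hg : g.IsNormalizedEigenform)
    (S : Set ℕ) (t : CuspForm.heckeAlgebra N 2 S) : IsIntegral ℤ (eigenCharC hg S t) := by
  haveI := S22.result N 2 S
  have h1 : IsIntegral ℤ t := Algebra.IsIntegral.isIntegral t
  exact h1.map (eigenCharC hg S).toIntAlgHom

/-- The integral character of the Hecke algebra attached to a normalised eigenform. -/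
noncomputable def eigenChar {g : CuspForm (Gamma0 N) 2} (hg : g.IsNormalizedEigenform)
    (S : Set ℕ) : CuspForm.heckeAlgebra N 2 S →+* integralClosure ℤ ℂ :=
  (eigenCharC hg S).codRestrict (integralClosure ℤ ℂ).toSubring
    (fun t => isIntegral_eigenCharC hg S t)

theorem coe_eigenChar {g : CuspForm (Gamma0 N) 2} (hg : g.IsNormalizedEigenform)
    (S : Set ℕ) (t : CuspForm.heckeAlgebra N 2 S) :
    ((eigenChar hg S t : integralClosure ℤ ℂ) : ℂ) = eigenCharC hg S t := rfl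

theorem coe_eigenChar_T {g : CuspForm (Gamma0 N) 2} (hg : g.IsNormalizedEigenform)
    {S : Set ℕ} {ℓ : ℕ} (hℓ : ℓ.Prime) (hℓN : ¬ ℓ ∣ N) (hℓS : ℓ ∉ S) :
    ((eigenChar hg S (CuspForm.heckeAlgebra.T hℓ hℓN hℓS) : integralClosure ℤ ℂ) : ℂ) =
      qCoeff ⇑g ℓ := by
  rw [coe_eigenChar, eigenCharC_T]

end Fermat.Agent.H23
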