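import Fermat.Agent.H23.QuadAssembly
import Fermat.Agent.H23.EigenChar
import Fermat.Agent.H05_Unram
import Fermat.Prelude.Def_GaloisRep_Residual

/-!
# The residual representation attached to a character of the Hecke algebra
-/

set_option autoImplicit false
set_option linter.style.haveILetI false

namespace Fermat.Agent.H23

open Module Polynomial
open scoped Pointwise

local notation "Γℚ" => AlgebraicClosure ℚ ≃ₐ[ℚ] AlgebraicClosure ℚ

/-- A homomorphism factoring through a finite level has finite range. -/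
theorem finite_range_of_finiteLevel {M : Type} [MulOneClass M] (r : Γℚ →* M)
    (hr : GaloisFactorsThroughFiniteLevel r) : (Set.range r).Finite := by
  classical
  obtain ⟨L, hL, h⟩ := hr
  haveI := hL
  -- `r` factors through restriction to `L`
  let res : Γℚ → (L →ₐ[ℚ] AlgebraicClosure ℚ) := fun σ => σ.toAlgHom.comp L.val
  have hfac : ∀ σ τ, res σ = res τ → r σ = r τ := by
    intro σ τ hστ
    have h1 : r (τ⁻¹ * σ) = 1 := by
      apply h
      intro x hx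
      have h2 : σ x = τ x := by
        have := DFunLike.congr_fun hστ ⟨x, hx⟩
        exact this
      change τ⁻¹ (σ x) = x
      rw [h2]
      change (τ⁻¹ * τ) x = x
      rw [inv_mul_cancel]
      rfl
    have h3 : σ = τ * (τ⁻¹ * σ) := by rw [mul_inv_cancel_left]
    rw [h3, map_mul, h1, mul_one]
  haveI : Finite (L →ₐ[ℚ] AlgebraicClosure ℚ) := inferInstance
  have : (Set.range r) ⊆ Set.range (fun f : (L →ₐ[ℚ] AlgebraicClosure ℚ) =>
      if hf : ∃ σ, res σ = f then r hf.choose else 1) := by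
    rintro _ ⟨σ, rfl⟩
    refine ⟨res σ, ?_⟩
    have hf : ∃ σ', res σ' = res σ := ⟨σ, rfl⟩
    dsimp only
    rw [dif_pos hf]
    exact hfac _ _ hf.choose_spec
  exact (Set.finite_range _).subset this

/-- The action of the Hecke algebra away from `N p` commutes with the Galois action. -/
theorem act_comm {p N : ℕ} [NeZero N] {S : Set ℕ} (hpS : p ∈ S)
    (hNS : ∀ q : ℕ, q.Prime → q ∣ N → q ∈ S) {W : Type} [AddCommGroup W]
    (act : CuspForm.heckeAlgebra N 2 S →+* Module.End ℤ W) (r : Γℚ →* Module.End ℤ W)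
    (hES : ∀ (ℓ : ℕ) (hℓ : ℓ.Prime) (hℓN : ¬ ℓ ∣ N) (hℓS : ℓ ∉ S), ℓ ≠ p →
      ∀ A : ValuationSubring (AlgebraicClosure ℚ), A.LiesOverPrime ℓ →
      ∀ φ : Γℚ, A.IsFrobeniusAt φ ℓ → ∀ w : W,
        r φ (r φ w) - act (CuspForm.heckeAlgebra.T hℓ hℓN hℓS) (r φ w) + ℓ • w = 0)
    (t : CuspForm.heckeAlgebra N 2 S) (g : Γℚ) (w : W) : act t (r g w) = r g (act t w) := by
  have hinv : ∀ (g : Γℚ) (w : W), r g (r g⁻¹ w) = w := by
    intro g w
    have : r g * r g⁻¹ = 1 := by rw [← map_mul, mul_inv_cancel, map_one]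
    exact LinearMap.congr_fun this w
  have hT : ∀ (ℓ : ℕ) (hℓ : ℓ.Prime) (hℓN : ¬ ℓ ∣ N) (hℓS : ℓ ∉ S),
      ∀ A : ValuationSubring (AlgebraicClosure ℚ), A.LiesOverPrime ℓ →
      ∀ φ : Γℚ, A.IsFrobeniusAt φ ℓ → ∀ w : W,
        act (CuspForm.heckeAlgebra.T hℓ hℓN hℓS) w = r φ w + ℓ • r φ⁻¹ w := by
    intro ℓ hℓ hℓN hℓS A hA φ hφ w
    have hℓp : ℓ ≠ p := fun h => hℓS (h ▸ hpS)
    have h := hES ℓ hℓ hℓN hℓS hℓp A hA φ hφ (r φ⁻¹ w)
    rw [hinv] at h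
    rw [← sub_eq_zero, ← neg_eq_zero, ← h]
    abel
  obtain ⟨t, ht⟩ := t
  have ht' : t ∈ Algebra.adjoin ℤ (CuspForm.heckeGenerators N 2 S) := ht
  revert g w
  induction ht' using Algebra.adjoin_induction with
  | mem x hx =>
    intro g w
    rcases hx with ⟨ℓ, hℓ, hℓN, hℓS, rfl⟩ | ⟨q, hqN, hq, hqS, rfl⟩
    · obtain ⟨A, hA⟩ := H05.exists_liesOverPrime (AlgebraicClosure ℚ) hℓ
      obtain ⟨φ, hφ⟩ := H05.exists_isFrobeniusAt (L := AlgebraicClosure ℚ) hℓ hA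
      have h1 := hT ℓ hℓ hℓN hℓS A hA φ hφ
      have h2 := hT ℓ hℓ hℓN hℓS (g • A) ((H05.liesOverPrime_smul_iff g A ℓ).mpr hA)
        (g * φ * g⁻¹) (H05.IsFrobeniusAt.conj hℓ hA hφ g)
      change act (CuspForm.heckeAlgebra.T hℓ hℓN hℓS) (r g w) =
        r g (act (CuspForm.heckeAlgebra.T hℓ hℓN hℓS) w)
      rw [h2, h1, map_add, map_nsmul]
      have e1 : r (g * φ * g⁻¹) (r g w) = r g (r φ w) := by
        rw [← Module.End.mul_apply, ← map_mul, inv_mul_cancel_right, map_mul,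
          Module.End.mul_apply]
      have e2 : r (g * φ * g⁻¹)⁻¹ (r g w) = r g (r φ⁻¹ w) := by
        rw [← Module.End.mul_apply, ← map_mul]
        have : (g * φ * g⁻¹)⁻¹ * g = g * φ⁻¹ := by group
        rw [this, map_mul, Module.End.mul_apply]
      rw [e1, e2]
    · exact absurd (hNS q hq hqN) hqS
  | algebraMap z =>
    intro g w
    have h1 : (⟨algebraMap ℤ _ z, ht⟩ : CuspForm.heckeAlgebra N 2 S) = algebraMap ℤ _ z := rfl
    rw [h1, eq_intCast (algebraMap ℤ (CuspForm.heckeAlgebra N 2 S)) z, map_intCast]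
    simp
  | add x y hx hy ihx ihy =>
    intro g w
    have h1 : (⟨x + y, ht⟩ : CuspForm.heckeAlgebra N 2 S) = ⟨x, hx⟩ + ⟨y, hy⟩ := rfl
    rw [h1, map_add, LinearMap.add_apply, LinearMap.add_apply, ihx hx, ihy hy, map_add]
  | mul x y hx hy ihx ihy =>
    intro g w
    have h1 : (⟨x * y, ht⟩ : CuspForm.heckeAlgebra N 2 S) = ⟨x, hx⟩ * ⟨y, hy⟩ := rfl
    rw [h1, map_mul, Module.End.mul_apply, Module.End.mul_apply, ihy hy, ihx hx]

theorem dvd_sub_of_pow_eq {K : Type*} [Field K] {ζ : K} {n : ℕ} (hn : n ≠ 0)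
    (hζ : IsPrimitiveRoot ζ n) {a b : ℕ} (h : ζ ^ a = ζ ^ b) : (n : ℤ) ∣ (a : ℤ) - b := by
  have hζ0 : ζ ≠ 0 := hζ.ne_zero hn
  rw [← hζ.zpow_eq_one_iff_dvd, zpow_sub₀ hζ0, zpow_natCast, zpow_natCast, h,
    div_self (pow_ne_zero _ hζ0)]

/-- The residual representation, from explicit data on one module `W`. -/
theorem exists_residual_aux {p N : ℕ} [NeZero N] (hp : p.Prime)
    {S : Set ℕ} (hpS : p ∈ S) (hNS : ∀ q : ℕ, q.Prime → q ∣ N → q ∈ S)
    (hS : ∀ ℓ : ℕ, ℓ.Prime → ¬ ℓ ∣ N → ℓ ≠ p → ℓ ∉ S)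
    {F : Type} [Field F] [IsAlgClosed F] [CharP F p] (χ : CuspForm.heckeAlgebra N 2 S →+* F)
    {W : Type} [AddCommGroup W]
    (act : CuspForm.heckeAlgebra N 2 S →+* Module.End ℤ W) (r : Γℚ →* Module.End ℤ W) (m : ℕ)
    (hW : ∀ w : W, (p ^ m) • w = 0)
    (hr : GaloisFactorsThroughFiniteLevel r)
    (hfaith : ∀ t : CuspForm.heckeAlgebra N 2 S, act t = 0 → ∃ s, t = (p ^ 1) • s)
    (hunr : ∀ q : ℕ, q.Prime → ¬ q ∣ N → q ≠ p → ∀ A : ValuationSubring (AlgebraicClosure ℚ),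
      A.LiesOverPrime q → ∀ τ ∈ A.inertiaSubgroupIn ℚ, r τ = 1)
    (hES : ∀ (ℓ : ℕ) (hℓ : ℓ.Prime) (hℓN : ¬ ℓ ∣ N) (hℓS : ℓ ∉ S), ℓ ≠ p →
      ∀ A : ValuationSubring (AlgebraicClosure ℚ), A.LiesOverPrime ℓ →
      ∀ φ : Γℚ, A.IsFrobeniusAt φ ℓ → ∀ w : W,
        r φ (r φ w) - act (CuspForm.heckeAlgebra.T hℓ hℓN hℓS) (r φ w) + ℓ • w = 0)
    {ζ : AlgebraicClosure ℚ} (hζ : IsPrimitiveRoot ζ (p ^ (m + 1)))
    (s : Γℚ → CuspForm.heckeAlgebra N 2 S) (c : Γℚ → ℕ)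
    (hsc : ∀ g w, act (s g) w = r g w + c g • r g⁻¹ w) (hgc : ∀ g : Γℚ, g ζ = ζ ^ c g) :
    ∃ ρ : ResidualGaloisRep F,
      (∀ (ℓ : ℕ) (hℓ : ℓ.Prime) (hℓN : ¬ ℓ ∣ N) (hℓp : ℓ ≠ p),
        ∀ A : ValuationSubring (AlgebraicClosure ℚ), A.LiesOverPrime ℓ →
        ∀ σ : Γℚ, A.IsFrobeniusAt σ ℓ →
          LinearMap.charpoly (ρ.ρ σ) =
            X ^ 2 - C (χ (CuspForm.heckeAlgebra.T hℓ hℓN (hS ℓ hℓ hℓN hℓp))) * X + C ((ℓ : F))) ∧
      ∀ ℓ : ℕ, ℓ.Prime → ¬ ℓ ∣ N * p → ρ.IsUnramifiedAt ℓ := by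
  classical
  haveI := S22.result N 2 S
  haveI : Fact p.Prime := ⟨hp⟩
  haveI : NeZero (p ^ (m + 1)) := ⟨(pow_pos hp.pos _).ne'⟩
  have hpm : p ^ (m + 1) ≠ 0 := (pow_pos hp.pos _).ne'
  have hW' : ∀ w : W, (p ^ (m + 1)) • w = 0 := fun w => by
    rw [pow_succ, mul_comm, mul_smul, hW, smul_zero]
  -- the mod `p` cyclotomic character
  let cyc : ZMod (p ^ (m + 1)) →+* F := ZMod.castHom (dvd_pow_self p (Nat.succ_ne_zero m)) F
  let d : Γℚ →* F := (cyc : ZMod (p ^ (m + 1)) →* F).comp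
    ((Units.coeHom (ZMod (p ^ (m + 1)))).comp (hζ.autToPow ℚ))
  have hd : ∀ (g : Γℚ) (c : ℕ), g ζ = ζ ^ c → d g = (c : F) := by
    intro g c hc
    have h1 : ((hζ.autToPow ℚ g : (ZMod (p ^ (m + 1)))ˣ) : ZMod (p ^ (m + 1))) =
        (c : ZMod (p ^ (m + 1))) := by
      have h2 := hζ.autToPow_spec ℚ g
      rw [hc] at h2
      have h3 := dvd_sub_of_pow_eq hpm hζ h2.symm
      have h4 := (ZMod.intCast_eq_intCast_iff_dvd_sub _ _ (p ^ (m + 1))).mpr h3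
      rw [Int.cast_natCast, Int.cast_natCast, ZMod.natCast_val, ZMod.cast_id', id] at h4
      exact h4
    change cyc (hζ.autToPow ℚ g : (ZMod (p ^ (m + 1)))ˣ) = _
    rw [h1, map_natCast]
  have hcomm := act_comm hpS hNS act r hES
  have hinv : ∀ (g : Γℚ) (w : W), r g (r g⁻¹ w) = w := by
    intro g w
    have : r g * r g⁻¹ = 1 := by rw [← map_mul, mul_inv_cancel, map_one]
    exact LinearMap.congr_fun this w
  -- the kernel of `χ` contains the annihilator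
  have hker : ∀ t, act t = 0 → χ t = 0 := by
    intro t ht
    obtain ⟨s, rfl⟩ := hfaith t ht
    rw [map_nsmul, pow_one, nsmul_eq_mul, CharP.cast_eq_zero, zero_mul]
  -- `ℓ ≠ p`
  have hndvd : ∀ ℓ : ℕ, ℓ.Prime → ℓ ≠ p → ¬ ℓ ∣ p ^ (m + 1) := fun ℓ hℓ hℓp h =>
    hℓp ((Nat.prime_dvd_prime_iff_eq hℓ hp).mp (hℓ.dvd_of_dvd_pow h))
  -- the action of the operator at a Frobenius element
  have hfrob : ∀ (ℓ : ℕ) (hℓ : ℓ.Prime) (hℓN : ¬ ℓ ∣ N) (hℓp : ℓ ≠ p),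
        ∀ A : ValuationSubring (AlgebraicClosure ℚ), A.LiesOverPrime ℓ →
        ∀ σ : Γℚ, A.IsFrobeniusAt σ ℓ →
          χ (s σ) = χ (CuspForm.heckeAlgebra.T hℓ hℓN (hS ℓ hℓ hℓN hℓp)) ∧ d σ = (ℓ : F) := by
    intro ℓ hℓ hℓN hℓp A hA σ hσ
    have hσζ : σ ζ = ζ ^ ℓ :=
      H05.IsFrobeniusAt.apply_rootOfUnity hℓ hA (hndvd ℓ hℓ hℓp) hσ hζ.pow_eq_one
    refine ⟨?_, hd σ ℓ hσζ⟩
    have h1 : act (s σ - CuspForm.heckeAlgebra.T hℓ hℓN (hS ℓ hℓ hℓN hℓp)) = 0 := by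
      ext w
      rw [map_sub, LinearMap.sub_apply, hsc, LinearMap.zero_apply]
      have h2 := hES ℓ hℓ hℓN (hS ℓ hℓ hℓN hℓp) hℓp A hA σ hσ (r σ⁻¹ w)
      rw [hinv] at h2
      have h3 : act (CuspForm.heckeAlgebra.T hℓ hℓN (hS ℓ hℓ hℓN hℓp)) w =
          r σ w + ℓ • r σ⁻¹ w := by
        rw [← sub_eq_zero, ← neg_eq_zero, ← h2]
        abel
      rw [h3, add_sub_add_left_eq_sub]
      have h4 := dvd_sub_of_pow_eq hpm hζ ((hgc σ).symm.trans hσζ)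
      obtain ⟨e, he⟩ := h4
      rw [← natCast_zsmul, ← natCast_zsmul, ← sub_smul, he, mul_comm, mul_smul, natCast_zsmul,
        hW', smul_zero]
    have h5 := hker _ h1
    rw [map_sub, sub_eq_zero] at h5
    exact h5
  -- maximality of the kernel of `χ`
  have hmax : (RingHom.ker χ).IsMaximal := by
    have h1 : Ideal.comap (algebraMap ℤ (CuspForm.heckeAlgebra N 2 S)) (RingHom.ker χ) =
        Ideal.span {(p : ℤ)} := by
      ext z
      rw [Ideal.mem_comap, RingHom.mem_ker,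
        eq_intCast (algebraMap ℤ (CuspForm.heckeAlgebra N 2 S)) z, map_intCast,
        Ideal.mem_span_singleton, CharP.intCast_eq_zero_iff F p]
    have h2 : (Ideal.span {(p : ℤ)}).IsMaximal :=
      PrincipalIdealRing.isMaximal_of_irreducible (Nat.prime_iff_prime_int.mp hp).irreducible
    haveI : (RingHom.ker χ).IsPrime := RingHom.ker_isPrime χ
    apply Ideal.isMaximal_of_isIntegral_of_isMaximal_comap (R := ℤ) (RingHom.ker χ)
    rw [h1]
    exact h2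
  obtain ⟨r', hr', hr1⟩ := exists_matrixRep act r hcomm (finite_range_of_finiteLevel r hr) hpm hW'
    χ hmax hker d s c (fun g => hd g _ (hgc g)) hsc
  -- the residual representation
  let ρ : ResidualGaloisRep F :=
    { V := Fin 2 → F
      finrank_eq := by simp
      ρ := (Matrix.toLinAlgEquiv' : Matrix (Fin 2) (Fin 2) F ≃ₐ[F] _).toMonoidHom.comp r'
      factorsThroughFiniteLevel := by
        obtain ⟨L, hL, hL1⟩ := hr
        let L₃ : IntermediateField ℚ (AlgebraicClosure ℚ) := IntermediateField.adjoin ℚ {ζ}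
        haveI := hL
        haveI hL₃ : FiniteDimensional ℚ L₃ := by
          apply IntermediateField.adjoin.finiteDimensional
          apply IsIntegral.of_pow (pow_pos hp.pos (m + 1))
          rw [hζ.pow_eq_one]
          exact isIntegral_one
        refine ⟨L ⊔ L₃, IntermediateField.finiteDimensional_sup L L₃, fun σ hσ => ?_⟩
        have h1 : r σ = 1 := hL1 σ fun x hx => hσ x (le_sup_left (a := L) hx)
        have h2 : σ ζ = ζ := hσ ζ (le_sup_right (a := L)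
          (IntermediateField.mem_adjoin_simple_self ℚ ζ))
        have h3 : d σ = 1 := by rw [hd σ 1 (by rw [h2, pow_one]), Nat.cast_one]
        change Matrix.toLinAlgEquiv' (r' σ) = 1
        rw [hr1 σ h1 h3, map_one] }
  have hρ : ∀ σ, ρ.ρ σ = Matrix.toLinAlgEquiv' (r' σ) := fun _ => rfl
  refine ⟨ρ, ?_, ?_⟩
  · intro ℓ hℓ hℓN hℓp A hA σ hσ
    obtain ⟨h1, h2⟩ := hfrob ℓ hℓ hℓN hℓp A hA σ hσ
    have h3 : LinearMap.charpoly (ρ.ρ σ) = (r' σ).charpoly := by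
      rw [hρ]
      exact Matrix.charpoly_toLin' (r' σ)
    rw [h3, hr', h1, h2]
  · intro ℓ hℓ hℓNp A hA τ hτ
    have hℓN : ¬ ℓ ∣ N := fun h => hℓNp (h.mul_right p)
    have hℓp : ℓ ≠ p := by
      rintro rfl
      exact hℓNp (dvd_mul_left _ _)
    have h1 : r τ = 1 := hunr ℓ hℓ hℓN hℓp A hA τ hτ
    have h2 : τ ζ = ζ := H05.inertia_apply_rootOfUnity hℓ hA (hndvd ℓ hℓ hℓp) hτ hζ.pow_eq_one
    have h3 : d τ = 1 := by rw [hd τ 1 (by rw [h2, pow_one]), Nat.cast_one]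
    rw [hρ, hr1 τ h1 h3, map_one]

/-- **The residual representation attached to a character of the Hecke algebra.** -/
theorem exists_residual (hCheb : H05.WeakChebotarev) {p N : ℕ} [NeZero N] (hp : p.Prime)
    {S : Set ℕ} (hpS : p ∈ S) (hNS : ∀ q : ℕ, q.Prime → q ∣ N → q ∈ S)
    (hS : ∀ ℓ : ℕ, ℓ.Prime → ¬ ℓ ∣ N → ℓ ≠ p → ℓ ∉ S)
    (hinput : H05.HeckeGaloisInput p N S)
    {F : Type} [Field F] [IsAlgClosed F] [CharP F p] (χ : CuspForm.heckeAlgebra N 2 S →+* F) :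
    ∃ ρ : ResidualGaloisRep F,
      (∀ (ℓ : ℕ) (hℓ : ℓ.Prime) (hℓN : ¬ ℓ ∣ N) (hℓp : ℓ ≠ p),
        ∀ A : ValuationSubring (AlgebraicClosure ℚ), A.LiesOverPrime ℓ →
        ∀ σ : Γℚ, A.IsFrobeniusAt σ ℓ →
          LinearMap.charpoly (ρ.ρ σ) =
            X ^ 2 - C (χ (CuspForm.heckeAlgebra.T hℓ hℓN (hS ℓ hℓ hℓN hℓp))) * X + C ((ℓ : F))) ∧
      ∀ ℓ : ℕ, ℓ.Prime → ¬ ℓ ∣ N * p → ρ.IsUnramifiedAt ℓ := by
  classical
  obtain ⟨W, instW, act, r, m, hW, hr, hfaith, hunr, hES⟩ := hinput 1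
  -- a primitive root of unity
  obtain ⟨ζ, hζ⟩ : ∃ ζ : AlgebraicClosure ℚ, IsPrimitiveRoot ζ (p ^ (m + 1)) := by
    haveI : NeZero ((p ^ (m + 1) : ℕ) : AlgebraicClosure ℚ) :=
      ⟨by exact_mod_cast (pow_pos hp.pos (m + 1)).ne'⟩
    haveI : NeZero (p ^ (m + 1)) := ⟨(pow_pos hp.pos _).ne'⟩
    exact HasEnoughRootsOfUnity.exists_primitiveRoot (AlgebraicClosure ℚ) (p ^ (m + 1))
  -- the Hecke operator attached to a Galois element
  have hex : ∀ g : Γℚ, ∃ (s : CuspForm.heckeAlgebra N 2 S) (c : ℕ),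
      (∀ w, act s w = r g w + c • r g⁻¹ w) ∧ g ζ = ζ ^ c := by
    intro g
    obtain ⟨L₂, hL₂, h2⟩ := hr
    haveI := hL₂
    let L₃ : IntermediateField ℚ (AlgebraicClosure ℚ) := IntermediateField.adjoin ℚ {ζ}
    haveI hL₃ : FiniteDimensional ℚ L₃ := by
      apply IntermediateField.adjoin.finiteDimensional
      apply IsIntegral.of_pow (pow_pos hp.pos (m + 1))
      rw [hζ.pow_eq_one]
      exact isIntegral_one
    haveI : FiniteDimensional ℚ (L₂ ⊔ L₃ : IntermediateField ℚ (AlgebraicClosure ℚ)) :=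
      IntermediateField.finiteDimensional_sup L₂ L₃
    obtain ⟨ℓ, hℓ, hℓS, A, hA, φ, hφ, j, hj⟩ := hCheb (L₂ ⊔ L₃) inferInstance
      (N * p).primeFactors g
    have hNp : N * p ≠ 0 := mul_ne_zero (NeZero.ne N) hp.ne_zero
    have hℓNp : ¬ ℓ ∣ N * p := fun h => hℓS (Nat.mem_primeFactors.mpr ⟨hℓ, h, hNp⟩)
    have hℓN : ¬ ℓ ∣ N := fun h => hℓNp (h.mul_right p)
    have hℓp : ℓ ≠ p := by
      rintro rfl
      exact hℓNp (dvd_mul_left _ _)
    -- `u` fixes the fields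
    let u : Γℚ := (φ ^ j)⁻¹ * g
    have hu : ∀ x ∈ (L₂ ⊔ L₃ : IntermediateField ℚ (AlgebraicClosure ℚ)), u x = x := by
      intro x hx
      change (φ ^ j)⁻¹ (g x) = x
      rw [hj x hx]
      change ((φ ^ j)⁻¹ * (φ ^ j)) x = x
      rw [inv_mul_cancel]
      rfl
    have hg : g = φ ^ j * u := by
      change g = φ ^ j * ((φ ^ j)⁻¹ * g)
      rw [mul_inv_cancel_left]
    have hu2 : ∀ x ∈ L₂, u x = x := fun x hx => hu x (le_sup_left (a := L₂) hx)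
    refine ⟨H05.lucas (CuspForm.heckeAlgebra.T hℓ hℓN (hS ℓ hℓ hℓN hℓp))
      (ℓ : CuspForm.heckeAlgebra N 2 S) j, ℓ ^ j, ?_, ?_⟩
    · intro w
      rw [H05.act_lucas act r φ _ ℓ (hES ℓ hℓ hℓN (hS ℓ hℓ hℓN hℓp) hℓp A hA φ hφ)]
      have hru : r u = 1 := h2 u hu2
      have h5 : r g = r (φ ^ j) := by
        have : r g = r (φ ^ j) * r u := by rw [← map_mul, ← hg]
        rw [this, hru, mul_one]
      have hru' : r u⁻¹ = 1 := by
        have : r u * r u⁻¹ = 1 := by rw [← map_mul, mul_inv_cancel, map_one]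
        rwa [hru, one_mul] at this
      have h6 : r g⁻¹ = r ((φ ^ j)⁻¹) := by
        have : r g⁻¹ = r u⁻¹ * r ((φ ^ j)⁻¹) := by rw [← map_mul, ← mul_inv_rev, ← hg]
        rw [this, hru', one_mul]
      rw [h5, h6]
    · have h7 : g ζ = (φ ^ j) ζ :=
        hj ζ (le_sup_right (a := L₂) (IntermediateField.mem_adjoin_simple_self ℚ ζ))
      rw [h7]
      have hℓm : ¬ ℓ ∣ p ^ (m + 1) := fun h =>
        hℓp ((Nat.prime_dvd_prime_iff_eq hℓ hp).mp (hℓ.dvd_of_dvd_pow h))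
      have hpow : ∀ j : ℕ, (φ ^ j) ζ = ζ ^ ℓ ^ j := by
        intro j
        induction j with
        | zero => simp
        | succ j ih =>
          have h8 : (φ ^ (j + 1)) ζ = φ ((φ ^ j) ζ) := by rw [pow_succ']; rfl
          rw [h8, ih, map_pow, H05.IsFrobeniusAt.apply_rootOfUnity hℓ hA hℓm hφ hζ.pow_eq_one,
            ← pow_mul, pow_succ']
      exact hpow j
  choose s c hsc hgc using hex
  exact exists_residual_aux hp hpS hNS hS χ act r m hW hr hfaith hunr hES hζ s c hsc hgc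

end Fermat.Agent.H23
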