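import Fermat.Agent.H23.Residual
import Fermat.Agent.H05_Rep

/-!
# S29 from the Hecke–Galois input
-/

set_option autoImplicit false
set_option linter.style.haveILetI false

namespace Fermat.Agent.H23

open Module Polynomial
open scoped Pointwise

local notation "Γℚ" => AlgebraicClosure ℚ ≃ₐ[ℚ] AlgebraicClosure ℚ

/-- The residue fields of the ring of algebraic integers of `ℂ` are algebraically closed. -/
theorem isAlgClosed_of_surjective {F : Type} [Field F] (π : integralClosure ℤ ℂ →+* F)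
    (hπ : Function.Surjective π) : IsAlgClosed F := by
  apply IsAlgClosed.of_exists_root
  intro f hf hirr
  have hlift : f ∈ Polynomial.lifts π := by
    rw [Polynomial.mem_lifts]
    exact Polynomial.map_surjective π hπ f
  obtain ⟨g, hg, hdeg, hmonic⟩ := Polynomial.lifts_and_degree_eq_and_monic hlift hf
  -- a complex root of the lift
  have hdeg' : (g.map (algebraMap (integralClosure ℤ ℂ) ℂ)).degree ≠ 0 := by
    rw [hmonic.degree_map, hdeg]
    exact hirr.degree_pos.ne'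
  obtain ⟨z, hz⟩ := IsAlgClosed.exists_root _ hdeg'
  have hz' : IsIntegral (integralClosure ℤ ℂ) z := by
    refine ⟨g, hmonic, ?_⟩
    rw [← Polynomial.eval_map]
    exact hz
  have hz'' : IsIntegral ℤ z := isIntegral_trans z hz'
  refine ⟨π ⟨z, hz''⟩, ?_⟩
  rw [← hg, Polynomial.eval_map, Polynomial.eval₂_at_apply]
  have h0 : g.eval (⟨z, hz''⟩ : integralClosure ℤ ℂ) = 0 := by
    apply Subtype.ext
    have h1 : ((g.eval (⟨z, hz''⟩ : integralClosure ℤ ℂ) : integralClosure ℤ ℂ) : ℂ) =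
        (g.map (algebraMap (integralClosure ℤ ℂ) ℂ)).eval z := by
      rw [Polynomial.eval_map]
      exact (Polynomial.eval₂_at_apply (algebraMap (integralClosure ℤ ℂ) ℂ)
        (⟨z, hz''⟩ : integralClosure ℤ ℂ)).symm
    rw [h1]
    exact hz
  rw [h0, map_zero]

/-- The kernel of a homomorphism from the algebraic integers to a field of characteristic `p` is
maximal. -/
theorem isMaximal_ker {p : ℕ} (hp : p.Prime) {k : Type} [Field k] [CharP k p]
    (φ : integralClosure ℤ ℂ →+* k) : (RingHom.ker φ).IsMaximal := by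
  have h1 : Ideal.comap (algebraMap ℤ (integralClosure ℤ ℂ)) (RingHom.ker φ) =
      Ideal.span {(p : ℤ)} := by
    ext z
    rw [Ideal.mem_comap, RingHom.mem_ker,
      eq_intCast (algebraMap ℤ (integralClosure ℤ ℂ)) z, map_intCast,
      Ideal.mem_span_singleton, CharP.intCast_eq_zero_iff k p]
  have h2 : (Ideal.span {(p : ℤ)}).IsMaximal :=
    PrincipalIdealRing.isMaximal_of_irreducible (Nat.prime_iff_prime_int.mp hp).irreducible
  haveI : (RingHom.ker φ).IsPrime := RingHom.ker_isPrime φ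
  apply Ideal.isMaximal_of_isIntegral_of_isMaximal_comap (R := ℤ) (RingHom.ker φ)
  rw [h1]
  exact h2

theorem charpoly_baseChangeAlong {k k' : Type} [Field k] [Field k'] (φ : k →+* k')
    (ρ : ResidualGaloisRep k) (σ : Γℚ) :
    LinearMap.charpoly ((ρ.baseChangeAlong φ).ρ σ) = (LinearMap.charpoly (ρ.ρ σ)).map φ := by
  letI : Algebra k k' := φ.toAlgebra
  exact LinearMap.charpoly_baseChange (ρ.ρ σ) k'

/-- The set of primes dividing `N p`. -/
def badSet (N p : ℕ) : Set ℕ := (↑(N * p).primeFactors : Set ℕ)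

theorem mem_badSet_self {N p : ℕ} [NeZero N] (hp : p.Prime) : p ∈ badSet N p := by
  rw [badSet, Finset.mem_coe, Nat.mem_primeFactors]
  exact ⟨hp, dvd_mul_left _ _, mul_ne_zero (NeZero.ne N) hp.ne_zero⟩

theorem mem_badSet_of_dvd {N p : ℕ} [NeZero N] (hp : p.Prime) (q : ℕ) (hq : q.Prime)
    (hqN : q ∣ N) : q ∈ badSet N p := by
  rw [badSet, Finset.mem_coe, Nat.mem_primeFactors]
  exact ⟨hq, hqN.mul_right p, mul_ne_zero (NeZero.ne N) hp.ne_zero⟩

theorem not_mem_badSet {N p : ℕ} (hp : p.Prime) (ℓ : ℕ) (hℓ : ℓ.Prime)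
    (hℓN : ¬ ℓ ∣ N) (hℓp : ℓ ≠ p) : ℓ ∉ badSet N p := by
  rw [badSet, Finset.mem_coe, Nat.mem_primeFactors]
  rintro ⟨-, h, -⟩
  rcases (Nat.Prime.dvd_mul hℓ).mp h with h | h
  · exact hℓN h
  · exact hℓp ((Nat.prime_dvd_prime_iff_eq hℓ hp).mp h)

/-- **S29 from the Hecke–Galois input.** -/
theorem s29_of (hCheb : H05.WeakChebotarev)
    (hinput : ∀ (N p : ℕ) [NeZero N], p.Prime → H05.HeckeGaloisInput p N (badSet N p))
    {N : ℕ} {g : CuspForm (CongruenceSubgroup.Gamma0 N) 2} (hg : g.IsNormalizedEigenform)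
    {p : ℕ} (hp : p.Prime) {k : Type} [Field k] [CharP k p]
    (φ : integralClosure ℤ ℂ →+* k) :
    ∃ ρ : ResidualGaloisRep k, ρ.IsAttachedTo g φ ∧
      ∀ ℓ : ℕ, ℓ.Prime → ¬ ℓ ∣ N * p → ρ.IsUnramifiedAt ℓ := by
  rcases eq_or_ne N 0 with rfl | hN
  · -- degenerate level: every condition is vacuous
    refine ⟨{ V := Fin 2 → k
              finrank_eq := by simp
              ρ := 1
              factorsThroughFiniteLevel := ⟨⊥, inferInstance, fun _ _ => rfl⟩ }, ?_, ?_⟩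
    · intro ℓ _ hℓ
      exact absurd (dvd_zero ℓ) hℓ
    · intro ℓ _ hℓ
      rw [zero_mul] at hℓ
      exact absurd (dvd_zero ℓ) hℓ
  haveI : NeZero N := ⟨hN⟩
  haveI := isMaximal_ker hp φ
  letI : Field (integralClosure ℤ ℂ ⧸ RingHom.ker φ) := Ideal.Quotient.field _
  haveI : IsAlgClosed (integralClosure ℤ ℂ ⧸ RingHom.ker φ) :=
    isAlgClosed_of_surjective (Ideal.Quotient.mk (RingHom.ker φ)) Ideal.Quotient.mk_surjective
  let j : (integralClosure ℤ ℂ ⧸ RingHom.ker φ) →+* k := RingHom.kerLift φ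
  have hj : ∀ x, j (Ideal.Quotient.mk (RingHom.ker φ) x) = φ x := fun _ => rfl
  haveI : CharP (integralClosure ℤ ℂ ⧸ RingHom.ker φ) p :=
    (j.charP_iff_charP p).mpr inferInstance
  let χ : CuspForm.heckeAlgebra N 2 (badSet N p) →+* (integralClosure ℤ ℂ ⧸ RingHom.ker φ) :=
    (Ideal.Quotient.mk (RingHom.ker φ)).comp (eigenChar hg (badSet N p))
  obtain ⟨ρ, hρ, hunr⟩ := exists_residual hCheb hp (mem_badSet_self hp)
    (mem_badSet_of_dvd hp) (not_mem_badSet hp) (hinput N p hp) χ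
  refine ⟨ρ.baseChangeAlong j, ?_, ?_⟩
  · intro ℓ hℓ hℓN hℓk A hA σ hσ
    have hℓp : ℓ ≠ p := by
      rintro rfl
      exact hℓk (CharP.cast_eq_zero k ℓ)
    refine ⟨eigenChar hg (badSet N p) (CuspForm.heckeAlgebra.T hℓ hℓN
      (not_mem_badSet hp ℓ hℓ hℓN hℓp)), coe_eigenChar_T hg hℓ hℓN _, ?_⟩
    rw [charpoly_baseChangeAlong, hρ ℓ hℓ hℓN hℓp A hA σ hσ]
    rw [Polynomial.map_add, Polynomial.map_sub, Polynomial.map_mul, Polynomial.map_pow,
      Polynomial.map_X, Polynomial.map_C, Polynomial.map_C, map_natCast]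
    rfl
  · intro ℓ hℓ hℓNp A hA τ hτ
    letI : Algebra (integralClosure ℤ ℂ ⧸ RingHom.ker φ) k := j.toAlgebra
    change (ρ.ρ τ).baseChange k = 1
    rw [hunr ℓ hℓ hℓNp A hA τ hτ]
    exact LinearMap.baseChange_one _ _

end Fermat.Agent.H23
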