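import Fermat.Agent.H23.Attach
import Fermat.Agent.H09.TorsionCount
import Fermat.Prelude.Def_FreyPackage_EigenformResidualAttachment

/-!
# S42 from the Hecke–Galois input
-/

set_option autoImplicit false
set_option linter.style.haveILetI false

namespace Fermat.Agent.H23

open Module Polynomial WeierstrassCurve WeierstrassCurve.Affine WeierstrassCurve.Affine.Point
open scoped Pointwise

local notation "Γℚ" => AlgebraicClosure ℚ ≃ₐ[ℚ] AlgebraicClosure ℚ

theorem smul_eq_self_of_coords (W : WeierstrassCurve ℚ) (σ : Γℚ)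
    (P : (W⁄(AlgebraicClosure ℚ)).Point)
    (h : ∀ x y hxy, P = Affine.Point.some x y hxy → σ x = x ∧ σ y = y) : σ • P = P := by
  rcases P with _ | ⟨x, y, hxy⟩
  · rfl
  · obtain ⟨hx, hy⟩ := h x y hxy rfl
    rw [algEquiv_smul_def, Affine.Point.map_some]
    congr

/-- The torsion representation of an elliptic curve factors through a finite level. -/
theorem torsion_finiteLevel (W : WeierstrassCurve ℚ) {p : ℕ} (hp : Odd p) :
    GaloisFactorsThroughFiniteLevel
      (galoisRepModuleEnd (S := ℚ) (K := AlgebraicClosure ℚ) W p) := by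
  classical
  have hp0 : p ≠ 0 := by rintro rfl; exact absurd hp (by decide)
  have hfin := (H09.card_torsion_le (W := (W⁄(AlgebraicClosure ℚ))) hp
    (by exact_mod_cast hp0)).1
  let cs : Set (AlgebraicClosure ℚ) :=
    (fun P : (W⁄(AlgebraicClosure ℚ)).Point => match P with
      | .zero => 0
      | .some x _ _ => x) '' {P | p • P = 0} ∪
    (fun P : (W⁄(AlgebraicClosure ℚ)).Point => match P with
      | .zero => 0
      | .some _ y _ => y) '' {P | p • P = 0}
  have hcs : cs.Finite := (hfin.image _).union (hfin.image _)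
  let L : IntermediateField ℚ (AlgebraicClosure ℚ) := IntermediateField.adjoin ℚ cs
  have hL : FiniteDimensional ℚ L := by
    haveI : Finite cs := hcs
    exact IntermediateField.finiteDimensional_adjoin
      (fun x _ => (Algebra.IsAlgebraic.isAlgebraic x).isIntegral)
  refine ⟨L, hL, fun σ hσ => ?_⟩
  ext P
  obtain ⟨P, hP⟩ := P
  rw [galoisRepModuleEnd_apply]
  change ((σ • P : (W⁄(AlgebraicClosure ℚ)).Point)) = P
  have hP' : p • P = 0 := by
    rw [Submodule.mem_torsionBy_iff] at hP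
    rw [← natCast_zsmul]
    exact hP
  apply smul_eq_self_of_coords
  rintro x y hxy rfl
  constructor
  · apply hσ
    apply IntermediateField.subset_adjoin
    exact Or.inl ⟨_, hP', rfl⟩
  · apply hσ
    apply IntermediateField.subset_adjoin
    exact Or.inr ⟨_, hP', rfl⟩

/-- **S42 from the Hecke–Galois input.** -/
theorem s42_of (hCheb : H05.WeakChebotarev)
    (hinput : ∀ (N p : ℕ) [NeZero N], p.Prime → H05.HeckeGaloisInput p N (badSet N p))
    (P : FreyPackage) (M : ℕ) (hM : 0 < M) : P.EigenformResidualAttachmentAt M := by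
  classical
  intro g hg 𝔪 h𝔪 hp𝔪
  haveI : NeZero M := ⟨hM.ne'⟩
  haveI := h𝔪
  haveI : Fact P.p.Prime := ⟨P.pp⟩
  letI instK : Field (integralClosure ℤ ℂ ⧸ 𝔪) := Ideal.Quotient.field 𝔪
  let ψ : integralClosure ℤ ℂ →+* (integralClosure ℤ ℂ ⧸ 𝔪) := Ideal.Quotient.mk 𝔪
  have hψp : ((P.p : ℕ) : integralClosure ℤ ℂ ⧸ 𝔪) = 0 := by
    have : ψ (P.p : integralClosure ℤ ℂ) = 0 := Ideal.Quotient.eq_zero_iff_mem.mpr hp𝔪
    rwa [map_natCast] at this
  haveI : CharP (integralClosure ℤ ℂ ⧸ 𝔪) P.p := (CharP.charP_iff_prime_eq_zero P.pp).mpr hψp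
  letI instAlg : Algebra (ZMod P.p) (integralClosure ℤ ℂ ⧸ 𝔪) := ZMod.algebra _ P.p
  obtain ⟨ρ, hatt, hunr⟩ := s29_of hCheb hinput hg P.pp ψ
  obtain ⟨L₁, hL₁, h1⟩ := ρ.factorsThroughFiniteLevel
  obtain ⟨L₂, hL₂, h2⟩ := torsion_finiteLevel P.freyCurve P.hp_odd
  haveI := hL₁
  haveI := hL₂
  haveI : FiniteDimensional ℚ (L₁ ⊔ L₂ : IntermediateField ℚ (AlgebraicClosure ℚ)) :=
    IntermediateField.finiteDimensional_sup L₁ L₂
  let E : IntermediateField ℚ (AlgebraicClosure ℚ) :=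
    IntermediateField.normalClosure ℚ (L₁ ⊔ L₂ : IntermediateField ℚ (AlgebraicClosure ℚ))
      (AlgebraicClosure ℚ)
  have hLE : L₁ ⊔ L₂ ≤ E := (L₁ ⊔ L₂).le_normalClosure
  haveI hEn : Normal ℚ E := normalClosure.normal ℚ _ (AlgebraicClosure ℚ)
  haveI hEf : FiniteDimensional ℚ E :=
    normalClosure.is_finiteDimensional ℚ _ (AlgebraicClosure ℚ)
  haveI hEg : IsGalois ℚ E := ⟨⟩
  haveI : NumberField E := ⟨⟩
  refine ⟨integralClosure ℤ ℂ ⧸ 𝔪, instK, instAlg, ρ.V, inferInstance, inferInstance, ρ.ρ, ψ,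
    E, inferInstance, inferInstance, inferInstance, inferInstance, inferInstance, ?_, ?_, ?_, ?_, ?_⟩
  · intro x hx
    exact Ideal.Quotient.eq_zero_iff_mem.mpr hx
  · exact ρ.finrank_eq
  · intro σ hσ
    have hfix : ∀ x ∈ E, σ x = x := by
      intro x hx
      have h3 := AlgEquiv.restrictNormal_commutes σ E ⟨x, hx⟩
      have h4 : σ.restrictNormal E = 1 := hσ
      rw [h4] at h3
      exact h3.symm
    refine ⟨?_, ?_⟩
    · exact h2 σ fun x hx => hfix x (hLE (le_sup_right (a := L₁) hx))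
    · exact h1 σ fun x hx => hfix x (hLE (le_sup_left (a := L₁) hx))
  · intro ℓ hℓ hℓM hℓp A hA τ hτ
    have hℓk : ((ℓ : ℕ) : integralClosure ℤ ℂ ⧸ 𝔪) ≠ 0 := by
      intro h0
      have := (CharP.cast_eq_zero_iff (integralClosure ℤ ℂ ⧸ 𝔪) P.p ℓ).mp h0
      exact hℓp ((Nat.prime_dvd_prime_iff_eq P.pp hℓ).mp this).symm
    obtain ⟨a, ha, hchar⟩ := hatt ℓ hℓ hℓM hℓk A hA τ hτ
    exact ⟨a, ha, H05.trace_eq_of_charpoly ρ.finrank_eq _ _ _ hchar⟩
  · intro ℓ hℓ hℓM hℓp A hA τ hτ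
    have hℓk : ((ℓ : ℕ) : integralClosure ℤ ℂ ⧸ 𝔪) ≠ 0 := by
      intro h0
      have := (CharP.cast_eq_zero_iff (integralClosure ℤ ℂ ⧸ 𝔪) P.p ℓ).mp h0
      exact hℓp ((Nat.prime_dvd_prime_iff_eq P.pp hℓ).mp this).symm
    obtain ⟨a, ha, hchar⟩ := hatt ℓ hℓ hℓM hℓk A hA τ hτ
    have h3 := LinearMap.det_eq_sign_charpoly_coeff (ρ.ρ τ)
    rw [hchar, ρ.finrank_eq] at h3
    rw [h3]
    simp

end Fermat.Agent.H23
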