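import Fermat.Agent.Ell.TWcond
import Fermat.Agent.H12.LL.LLmain

/-!
# Absolute irreducibility of `E[p]` on subgroups of index at most two (semistable curves)
-/

set_option autoImplicit false
set_option linter.unusedSectionVars false
set_option linter.style.haveILetI false

noncomputable section

namespace Fermat.Agent.H23

open Fermat.Agent.H25 Fermat.Agent.H25.PR Fermat.Agent.H25.TR Fermat.Agent.TW Fermat.Agent.CC Matrix
open IsLocalRing
open WeierstrassCurve WeierstrassCurve.Affine WeierstrassCurve.Affine.Point
open Fermat.Agent.H08 Fermat.Agent.Ell Fermat.Agent.H12.LL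
open scoped Pointwise

/-- **(G5)** `E[p]` is absolutely irreducible on subgroups of index at most two -/
theorem nlIn {W : WeierstrassCurve ℤ} (hss : W.IsSemistableModel) (p : ℕ) [hp : Fact p.Prime] :
    NLIn W p := by
  intro hΔ hirr hp2 O _ _ _ _ G' hG'
  haveI := isElliptic_WQ hΔ
  haveI := charP_res p O
  haveI : CharP (AlgebraicClosure (ResidueField O)) p :=
    charP_of_injective_algebraMap (algebraMap (ResidueField O)
      (AlgebraicClosure (ResidueField O))).injective p
  letI : Algebra (ZMod p) (AlgebraicClosure (ResidueField O)) := ZMod.algebra _ p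
  obtain ⟨Q, Q', h, h', hQ⟩ := RDW_conj hΔ hirr hp2 (O := O)
  set f := algebraMap (ResidueField O) (AlgebraicClosure (ResidueField O)) with hf
  have key := noLine_of_semistable hΔ hss hp2 hirr (AlgebraicClosure (ResidueField O))
    (tB (p := p) hΔ) hG'
  have hmul : ∀ M N : Mt (ResidueField O), (M * N).map f = M.map f * N.map f := fun M N =>
    (RingHom.mapMatrix f).map_mul M N
  have hone : (1 : Mt (ResidueField O)).map f = 1 := (RingHom.mapMatrix f).map_one
  refine NoLine.conj (Q := Q.map f) (Q' := Q'.map f) ?_ ?_ (fun g => ?_) key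
  · rw [← hmul, h, hone]
  · rw [← hmul, h', hone]
  · rw [ext_apply, ext_apply, hQ, hmul, hmul]
    congr 2
    ext i j
    rw [Matrix.map_apply, Matrix.map_apply, MR_apply, Matrix.map_apply, ringHom_padic, rho0_apply]
    change (f.comp (ZMod.castHom (dvd_refl p) (ResidueField O))) _ =
      algebraMap (ZMod p) (AlgebraicClosure (ResidueField O)) _
    rw [Subsingleton.elim (f.comp (ZMod.castHom (dvd_refl p) (ResidueField O)))
      (algebraMap (ZMod p) (AlgebraicClosure (ResidueField O)))]
    rfl

end Fermat.Agent.H23
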