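import Fermat.Agent.H01_Quadratic

/-!
# From a Hecke–Galois module to a two-dimensional representation
-/

set_option autoImplicit false
set_option linter.style.haveILetI false

namespace Fermat.Agent.H23

open Module Polynomial TensorProduct

/-- In a ring finite over `ℤ`, modulo `n ≠ 0`, high powers of a maximal ideal are killed by an
element outside the ideal. -/
theorem exists_kill_pow {T : Type*} [CommRing T] [Module.Finite ℤ T] (n : ℕ) (hn : n ≠ 0)
    (P : Ideal T) [P.IsMaximal] :
    ∃ s : T, s ∉ P ∧ ∃ k : ℕ, ∀ x ∈ P ^ k, s * x ∈ Ideal.span {(n : T)} := by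
  by_cases hnP : (n : T) ∈ P
  swap
  · exact ⟨n, hnP, 0, fun x _ => Ideal.mul_mem_right _ _ (Ideal.subset_span rfl)⟩
  set I : Ideal T := Ideal.span {(n : T)} with hI
  have hIP : I ≤ P := by
    rw [hI, Ideal.span_le]
    simpa using hnP
  -- the quotient is finite
  haveI hfin : Finite (T ⧸ I) := by
    haveI : Module.Finite ℤ (T ⧸ I) := inferInstance
    refine Module.finite_of_fg_torsion (T ⧸ I) ?_
    intro x
    refine ⟨⟨(n : ℤ), ?_⟩, ?_⟩
    · exact mem_nonZeroDivisors_of_ne_zero (by exact_mod_cast hn)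
    · obtain ⟨y, rfl⟩ := Ideal.Quotient.mk_surjective x
      change ((n : ℤ)) • (Ideal.Quotient.mk I y) = 0
      rw [← map_zsmul, Ideal.Quotient.eq_zero_iff_mem, zsmul_eq_mul, Int.cast_natCast]
      exact Ideal.mul_mem_right _ _ (Ideal.subset_span rfl)
  set Q : Ideal (T ⧸ I) := P.map (Ideal.Quotient.mk I) with hQ
  -- the chain of powers stabilises
  obtain ⟨k, hk⟩ := IsArtinian.monotone_stabilizes (R := T ⧸ I) (M := T ⧸ I)
    ⟨fun k => OrderDual.toDual (Q ^ k), fun a b hab => Ideal.pow_le_pow_right hab⟩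
  have hk' : ∀ m, k ≤ m → Q ^ k = Q ^ m := fun m hm => OrderDual.toDual.injective (hk m hm)
  have hidem : IsIdempotentElem (Q ^ (k + 1)) := by
    change Q ^ (k + 1) * Q ^ (k + 1) = Q ^ (k + 1)
    rw [← pow_add, ← hk' _ (by omega), ← hk' (k + 1) (by omega)]
  obtain ⟨e, he, he2⟩ := (Ideal.isIdempotentElem_iff_of_fg (Q ^ (k + 1))
    (IsNoetherian.noetherian _)).mp hidem
  obtain ⟨s, hs⟩ := Ideal.Quotient.mk_surjective (I := I) (1 - e)
  have heQ : e ∈ Q := by
    have h1 : e ∈ Q ^ (k + 1) := by rw [he2]; exact Ideal.subset_span rfl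
    exact Ideal.pow_le_self (Nat.succ_ne_zero k) h1
  refine ⟨s, ?_, k + 1, ?_⟩
  · intro hsP
    have h1 : (1 - e) ∈ Q := by rw [← hs]; exact Ideal.mem_map_of_mem _ hsP
    have h2 : (1 : T ⧸ I) ∈ Q := by
      have := Q.add_mem h1 heQ
      simpa using this
    obtain ⟨x, hx, hx1⟩ := (Ideal.mem_map_iff_of_surjective _ Ideal.Quotient.mk_surjective).mp h2
    have h3 : x - 1 ∈ I := by
      rw [← Ideal.Quotient.eq_zero_iff_mem, map_sub, hx1, map_one, sub_self]
    have h4 : (1 : T) ∈ P := by
      have := P.sub_mem hx (hIP h3)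
      simpa using this
    exact (Ideal.IsMaximal.ne_top ‹_›) ((Ideal.eq_top_iff_one _).mpr h4)
  · intro x hx
    rw [← Ideal.Quotient.eq_zero_iff_mem, map_mul, hs]
    have h1 : Ideal.Quotient.mk I x ∈ Q ^ (k + 1) := by
      rw [hQ, ← Ideal.map_pow]
      exact Ideal.mem_map_of_mem _ hx
    rw [he2, Ideal.mem_span_singleton] at h1
    obtain ⟨y, hy⟩ := h1
    rw [hy, sub_mul, one_mul, ← mul_assoc, he.eq, sub_self]

/-- A module over `T`, killed by `n`, whose annihilator is contained in the maximal ideal `P`,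
is not equal to `P W`. -/
theorem smul_top_ne_top {T : Type*} [CommRing T] [Module.Finite ℤ T] {n : ℕ} (hn : n ≠ 0)
    (P : Ideal T) [P.IsMaximal] {W : Type*} [AddCommGroup W] [Module T W]
    (hW : ∀ w : W, n • w = 0) (hann : ∀ t : T, (∀ w : W, t • w = 0) → t ∈ P) :
    P • (⊤ : Submodule T W) ≠ ⊤ := by
  intro htop
  obtain ⟨s, hsP, k, hk⟩ := exists_kill_pow n hn P
  apply hsP
  apply hann
  intro w
  have hpow : ∀ k : ℕ, P ^ k • (⊤ : Submodule T W) = ⊤ := by
    intro k
    induction k with
    | zero => simp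
    | succ k ih => rw [pow_succ, ← smul_eq_mul, Submodule.smul_assoc, htop, ih]
  have hw : w ∈ P ^ k • (⊤ : Submodule T W) := by rw [hpow k]; trivial
  refine Submodule.smul_induction_on (p := fun x => s • x = 0) hw ?_ ?_
  · intro x hx y _
    rw [smul_smul]
    obtain ⟨z, hz⟩ := Ideal.mem_span_singleton'.mp (hk x hx)
    rw [← hz, mul_smul, Nat.cast_smul_eq_nsmul, hW, smul_zero]
  · intro x y hx hy
    rw [smul_add, hx, hy, add_zero]

/-- Existence of a nonzero functional modulo `P`. -/
theorem exists_functional {T : Type*} [CommRing T] (P : Ideal T) [hP : P.IsMaximal] {W : Type*}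
    [AddCommGroup W] [Module T W] (h : P • (⊤ : Submodule T W) ≠ ⊤) :
    ∃ (f : W →ₗ[T] T ⧸ P) (w : W), f w = 1 := by
  letI := Ideal.Quotient.field P
  obtain ⟨w, hw⟩ : ∃ w : W, w ∉ P • (⊤ : Submodule T W) := by
    by_contra hcon
    push Not at hcon
    exact h (eq_top_iff.mpr fun w _ => hcon w)
  have hne : (Submodule.Quotient.mk w : W ⧸ P • (⊤ : Submodule T W)) ≠ 0 := by
    rwa [Ne, Submodule.Quotient.mk_eq_zero]
  obtain ⟨φ, hφ⟩ := Module.Projective.exists_dual_eq_one (T ⧸ P) hne
  exact ⟨(φ.restrictScalars T).comp (Submodule.mkQ _), w, hφ⟩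


/-- **Assembly**: from a module over a finite `ℤ`-algebra `T` with a commuting group action
satisfying `g + c(g) g⁻¹ = s(g) ∈ T`, and a character of `T` whose kernel contains the
annihilator, to a two-dimensional representation. -/
theorem exists_matrixRep {G : Type*} [Group G] {T : Type} [CommRing T] [Module.Finite ℤ T]
    {W : Type} [AddCommGroup W] (act : T →+* Module.End ℤ W) (r : G →* Module.End ℤ W)
    (hcomm : ∀ t g w, act t (r g w) = r g (act t w))
    (hfin : (Set.range r).Finite)
    {n : ℕ} (hn : n ≠ 0) (hW : ∀ w : W, n • w = 0)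
    {F : Type} [Field F] [IsAlgClosed F] (χ : T →+* F) (hmax : (RingHom.ker χ).IsMaximal)
    (hker : ∀ t, act t = 0 → χ t = 0)
    (d : G →* F) (s : G → T) (c : G → ℕ) (hd : ∀ g, d g = (c g : F))
    (hquad : ∀ g w, act (s g) w = r g w + c g • r g⁻¹ w) :
    ∃ r' : G →* Matrix (Fin 2) (Fin 2) F,
      (∀ g, (r' g).charpoly = X ^ 2 - C (χ (s g)) * X + C (d g)) ∧
      ∀ g, r g = 1 → d g = 1 → r' g = 1 := by
  classical
  letI : Module T W := Module.compHom W act
  have hsmul : ∀ (t : T) (w : W), t • w = act t w := fun _ _ => rfl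
  letI : Algebra T F := χ.toAlgebra
  have halg : ∀ t : T, algebraMap T F t = χ t := fun _ => rfl
  -- a functional
  haveI := hmax
  obtain ⟨f, w0, hf⟩ := exists_functional (RingHom.ker χ) (W := W)
    (smul_top_ne_top hn (RingHom.ker χ) hW (fun t ht => by
      rw [RingHom.mem_ker]
      apply hker
      ext w
      exact ht w))
  -- the action on `F ⊗ W`
  let rT : G → (W →ₗ[T] W) := fun g =>
    { toFun := r g
      map_add' := map_add (r g)
      map_smul' := fun t w => by
        rw [RingHom.id_apply, hsmul, hsmul, hcomm] }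
  have hrT : ∀ g w, rT g w = r g w := fun _ _ => rfl
  let R : G →* Module.End F (F ⊗[T] W) :=
    { toFun := fun g => (rT g).baseChange F
      map_one' := by
        have : rT 1 = LinearMap.id := by
          ext w
          rw [hrT, map_one]
          rfl
        rw [this, LinearMap.baseChange_id]
        rfl
      map_mul' := fun g h => by
        have : rT (g * h) = rT g ∘ₗ rT h := by
          ext w
          rw [hrT, map_mul]
          rfl
        rw [this, LinearMap.baseChange_comp]
        rfl }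
  have hR : ∀ g a w, R g (a ⊗ₜ w) = a ⊗ₜ (r g w) := fun g a w => rfl
  have hrinv : ∀ g w, r g⁻¹ (r g w) = w := fun g w => by
    have : r g⁻¹ * r g = 1 := by rw [← map_mul, inv_mul_cancel, map_one]
    exact LinearMap.congr_fun this w
  have hquadR : ∀ g : G, ∀ v : F ⊗[T] W, R g (R g v) - χ (s g) • R g v + d g • v = 0 := by
    intro g v
    induction v using TensorProduct.induction_on with
    | zero => simp
    | tmul a w =>
      rw [hR, hR, TensorProduct.smul_tmul', TensorProduct.smul_tmul', ← halg, smul_eq_mul,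
        ← Algebra.smul_def, TensorProduct.smul_tmul, hsmul, hquad, hrinv, hd, smul_eq_mul,
        TensorProduct.tmul_add]
      have : ((c g : F) * a) ⊗ₜ[T] w = a ⊗ₜ[T] (c g • w) := by
        rw [← nsmul_eq_mul, TensorProduct.tmul_smul, TensorProduct.smul_tmul']
      rw [this]
      abel
    | add x y hx hy =>
      have : R g (R g (x + y)) - χ (s g) • R g (x + y) + d g • (x + y) =
          (R g (R g x) - χ (s g) • R g x + d g • x) +
          (R g (R g y) - χ (s g) • R g y + d g • y) := by
        simp only [map_add, smul_add]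
        abel
      rw [this, hx, hy, add_zero]
  -- the vector `1 ⊗ w0` is nonzero
  set v0 : F ⊗[T] W := 1 ⊗ₜ w0 with hv0
  have hv0ne : v0 ≠ 0 := by
    let j : (T ⧸ RingHom.ker χ) →ₗ[T] F :=
      { toFun := RingHom.kerLift χ
        map_add' := map_add _
        map_smul' := fun t x => by
          obtain ⟨y, rfl⟩ := Ideal.Quotient.mk_surjective x
          change RingHom.kerLift χ (Ideal.Quotient.mk _ (t * y)) = _
          rw [map_mul, map_mul]
          rfl }
    let F1 : F ⊗[T] W →ₗ[T] F := TensorProduct.lift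
      ((LinearMap.mul T F).compl₂ (j ∘ₗ f))
    intro h0
    have h1 : F1 v0 = 1 := by
      change (1 : F) * j (f w0) = 1
      rw [hf, one_mul]
      change RingHom.kerLift χ 1 = 1
      rw [map_one]
    rw [h0, map_zero] at h1
    exact zero_ne_one h1
  -- the finite-dimensional invariant subspace
  let U : Submodule F (F ⊗[T] W) := Submodule.span F (Set.range fun g => R g v0)
  have hU : ∀ g : G, ∀ u ∈ U, R g u ∈ U := by
    intro g u hu
    induction hu using Submodule.span_induction with
    | mem u hu =>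
      obtain ⟨x, rfl⟩ := hu
      apply Submodule.subset_span
      exact ⟨g * x, by simp [map_mul]⟩
    | zero => rw [map_zero]; exact Submodule.zero_mem _
    | add a b _ _ ha hb => rw [map_add]; exact Submodule.add_mem _ ha hb
    | smul c a _ ha => rw [map_smul]; exact Submodule.smul_mem _ _ ha
  have hUfin : FiniteDimensional F U := by
    apply FiniteDimensional.span_of_finite
    have : (Set.range fun g => R g v0) =
        (fun φ : Module.End ℤ W => (1 : F) ⊗ₜ[T] (φ w0)) '' Set.range r := by
      ext x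
      constructor
      · rintro ⟨g, rfl⟩
        exact ⟨r g, ⟨g, rfl⟩, rfl⟩
      · rintro ⟨_, ⟨g, rfl⟩, rfl⟩
        exact ⟨g, rfl⟩
    rw [this]
    exact hfin.image _
  have hUnt : Nontrivial U := by
    refine ⟨⟨v0, Submodule.subset_span ⟨1, by simp⟩⟩, 0, ?_⟩
    intro h
    exact hv0ne (congrArg Subtype.val h)
  have hq : ∀ (g : G) (v : U), (H01.restrictRep R U hU g) ((H01.restrictRep R U hU g) v) -
      χ (s g) • (H01.restrictRep R U hU g) v + d g • v = 0 := by
    intro g v
    apply Subtype.ext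
    rw [Submodule.coe_add, Submodule.coe_sub, Submodule.coe_smul, Submodule.coe_smul,
      H01.coe_restrictRep_apply, H01.coe_restrictRep_apply, Submodule.coe_zero]
    exact hquadR g v
  haveI := hUfin
  haveI := hUnt
  obtain ⟨r', hr', hr1⟩ := H01.exists_matrixRep_of_quadRel (G := G) (k := F) (W := U)
    (H01.restrictRep R U hU) (fun g => χ (s g)) d hq
  refine ⟨r', hr', fun g hg hdg => hr1 g ?_ hdg⟩
  have hRg : R g = 1 := by
    ext w
    change (1 : F) ⊗ₜ[T] (r g w) = (1 : F) ⊗ₜ[T] w
    rw [hg]
    rfl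
  ext u
  rw [H01.coe_restrictRep_apply, hRg]
  rfl

end Fermat.Agent.H23
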